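import Mathlib.RingTheory.Regular.ProjectiveDimension
import Mathlib.RingTheory.FiniteLength
import Fermat.Agent.Patching.PowerSeriesRegular

/-!
# Finite modules of maximal depth over a regular local ring are free
-/

set_option autoImplicit false

open RingTheory.Sequence IsLocalRing CategoryTheory
open scoped Pointwise

namespace Fermat.Agent.Patching

universe u

variable {P : Type u} [CommRing P] [IsLocalRing P] [IsNoetherianRing P]

/-- If the maximal ideal is generated by a regular sequence of length `n`, modules of finite
length have projective dimension at most `n`. -/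
lemma hasProjDimLE_of_isFiniteLength (ps : List P) (hreg : IsWeaklyRegular P ps)
    (hmax : Ideal.ofList ps = maximalIdeal P) (M : Type u) [AddCommGroup M] [Module P M]
    (hM : IsFiniteLength P M) :
    HasProjectiveDimensionLT (ModuleCat.of P M) (ps.length + 1) := by
  induction hM with
  | @of_subsingleton M _ _ _ =>
    have := (ModuleCat.isZero_of_subsingleton (ModuleCat.of P M)).hasProjectiveDimensionLT_zero
    exact hasProjectiveDimensionLT_of_ge (ModuleCat.of P M) 0 _ (Nat.zero_le _)
  | @of_simple_quotient M _ _ S _ _ ih =>
    obtain ⟨I, hI, ⟨e⟩⟩ := isSimpleModule_iff_quot_maximal.1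
      (inferInstance : IsSimpleModule P (M ⧸ S))
    obtain rfl : I = maximalIdeal P := eq_maximalIdeal hI
    have hregular : IsRegular P ps :=
      ⟨hreg, by
        rw [smul_eq_mul, Ideal.mul_top, hmax]
        exact (Ideal.IsMaximal.ne_top inferInstance).symm⟩
    have hk : HasProjectiveDimensionLT (ModuleCat.of P (P ⧸ maximalIdeal P)) (ps.length + 1) := by
      refine (projectiveDimension_le_iff (ModuleCat.of P (P ⧸ maximalIdeal P)) ps.length).1 ?_
      have h1 := ModuleCat.projectiveDimension_quotient_eq_length.{u} ps hregular
      rw [projectiveDimension_eq_of_iso ((Shrink.linearEquiv.{u} P (P ⧸ Ideal.ofList ps)).trans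
        (Submodule.quotEquivOfEq _ _ hmax)).toModuleIso] at h1
      exact h1.le
    have hQ : HasProjectiveDimensionLT (ModuleCat.of P (M ⧸ S)) (ps.length + 1) :=
      hasProjectiveDimensionLT_of_iso e.symm.toModuleIso _
    let T : ShortComplex (ModuleCat.{u} P) := S.mkQ.shortComplexKer
    have hT : T.ShortExact := LinearMap.shortExact_shortComplexKer S.mkQ_surjective
    refine hT.hasProjectiveDimensionLT_X₂ _ ?_ hQ
    exact hasProjectiveDimensionLT_of_iso
      (LinearEquiv.ofEq S (LinearMap.ker S.mkQ) S.ker_mkQ.symm).toModuleIso _

/-- Let `P` be a Noetherian local ring whose maximal ideal is generated by a regular sequence of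
length `n`. A finite module with a regular sequence `rs ⊆ 𝔪` of length `n` and finite length
quotient is free. -/
lemma free_of_isWeaklyRegular (ps : List P) (hreg : IsWeaklyRegular P ps)
    (hmax : Ideal.ofList ps = maximalIdeal P) (N : Type u) [AddCommGroup N] [Module P N]
    [Module.Finite P N] [Nontrivial N] (rs : List P) (hlen : rs.length = ps.length)
    (hrs : IsWeaklyRegular N rs) (hmem : ∀ x ∈ rs, x ∈ maximalIdeal P)
    (hfl : IsFiniteLength P (N ⧸ Ideal.ofList rs • (⊤ : Submodule P N))) :
    Module.Free P N := by
  have hK : projectiveDimension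
      (ModuleCat.of P (N ⧸ Ideal.ofList rs • (⊤ : Submodule P N))) ≤ (ps.length : ℕ) :=
    (projectiveDimension_le_iff _ _).2 (hasProjDimLE_of_isFiniteLength ps hreg hmax _ hfl)
  have heq := ModuleCat.projectiveDimension_quotient_eq_add_length_of_isWeaklyRegular
    (ModuleCat.of P N) rs hrs hmem
  rw [heq, hlen] at hK
  have h0 : projectiveDimension (ModuleCat.of P N) ≤ (0 : ℕ) := by
    have h0' : projectiveDimension (ModuleCat.of P N) + (ps.length : ℕ) ≤
        ((0 : ℕ) : WithBot ℕ∞) + (ps.length : ℕ) := by simpa using hK
    exact ENat.WithBot.add_le_add_natCast_right_iff.1 h0'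
  have : Projective (ModuleCat.of P N) :=
    projective_iff_hasProjectiveDimensionLT_one.2 ((projectiveDimension_le_iff _ _).1 h0)
  have : Module.Projective P N := (IsProjective.iff_projective N).2 this
  exact Module.free_of_flat_of_isLocalRing

end Fermat.Agent.Patching
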